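/-
S16, UPPER, package U-N (helper63): valuation subrings of `ℂ` above a rational prime `l`.

`exists_valuationSubring` : a valuation subring `V ⊆ ℂ` in which `l` is a nonunit;
for such `V`: all integers are in `V`, `n⁻¹ ∈ V` for every integer `n` prime to `l`,
and every root of unity lies in `V`.
-/
import Mathlib

set_option autoImplicit false

namespace Fermat.Agent.S16.H63

/-- A valuation subring of `ℂ` in which the prime `l` is a nonunit. -/
theorem exists_valuationSubring (l : ℕ) (hl : l.Prime) :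
    ∃ V : ValuationSubring ℂ, (l : ℂ) ∈ V ∧ (l : ℂ)⁻¹ ∉ V := by
  classical
  have hlA : (l : ℂ) ∈ (⊥ : Subring ℂ) := natCast_mem _ l
  have hI : Ideal.span {(⟨(l : ℂ), hlA⟩ : (⊥ : Subring ℂ))} ≠ ⊤ := by
    intro h
    rw [Ideal.span_singleton_eq_top] at h
    obtain ⟨⟨b, hb⟩, hmul⟩ := isUnit_iff_exists_inv.mp h
    obtain ⟨k, rfl⟩ := Subring.mem_bot.mp hb
    have h1 : (l : ℂ) * (k : ℂ) = 1 := congrArg Subtype.val hmul
    have h2 : (l : ℤ) * k = 1 := by exact_mod_cast h1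
    have h3 : (l : ℤ) ∣ 1 := Dvd.intro _ h2
    have h4 : l ∣ 1 := by exact_mod_cast h3
    exact hl.one_lt.ne' (Nat.dvd_one.mp h4)
  obtain ⟨V, -, hV⟩ := Ideal.image_subset_nonunits_valuationSubring _ hI
  have hmem : (l : ℂ) ∈ V.nonunits :=
    hV ⟨⟨(l : ℂ), hlA⟩, Ideal.subset_span rfl, rfl⟩
  rw [ValuationSubring.mem_nonunits_iff] at hmem
  refine ⟨V, (V.valuation_le_one_iff _).mp hmem.le, fun hinv => ?_⟩
  have h1 : V.valuation ((l : ℂ)⁻¹) ≤ 1 := (V.valuation_le_one_iff _).mpr hinv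
  have hl0 : (l : ℂ) ≠ 0 := Nat.cast_ne_zero.mpr hl.ne_zero
  have h2 : V.valuation (l : ℂ) * V.valuation ((l : ℂ)⁻¹) = 1 := by
    rw [← map_mul, mul_inv_cancel₀ hl0, map_one]
  have h3 : V.valuation (l : ℂ) * V.valuation ((l : ℂ)⁻¹) < 1 := by
    calc V.valuation (l : ℂ) * V.valuation ((l : ℂ)⁻¹)
        ≤ V.valuation (l : ℂ) * 1 := mul_le_mul' le_rfl h1
      _ = V.valuation (l : ℂ) := mul_one _
      _ < 1 := hmem
  exact absurd h2 h3.ne

variable (V : ValuationSubring ℂ)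

theorem intCast_mem_V (n : ℤ) : (n : ℂ) ∈ V := intCast_mem V n

theorem natCast_mem_V (n : ℕ) : (n : ℂ) ∈ V := natCast_mem V n

/-- If `l` is a nonunit of `V` and the integer `n` is prime to `l`, then `n⁻¹ ∈ V`. -/
theorem inv_intCast_mem {l : ℕ} (hl : l.Prime) (hV : (l : ℂ)⁻¹ ∉ V) (n : ℤ)
    (hn : ¬ (l : ℤ) ∣ n) : ((n : ℂ))⁻¹ ∈ V := by
  by_contra hcon
  have hlV : (l : ℂ) ∈ V := natCast_mem V l
  have hnV : (n : ℂ) ∈ V := intCast_mem V n
  -- Bezout
  have hcop : IsCoprime (l : ℤ) n := by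
    rw [Int.isCoprime_iff_gcd_eq_one]
    have hp : Prime (l : ℤ) := Nat.prime_iff_prime_int.mp hl
    have := (Int.isCoprime_iff_gcd_eq_one.mp ((hp.coprime_iff_not_dvd).mpr hn))
    exact this
  obtain ⟨a, b, hab⟩ := hcop
  have hval_l : V.valuation (l : ℂ) < 1 := by
    have h1 : V.valuation (l : ℂ) ≤ 1 := (V.valuation_le_one_iff _).mpr hlV
    rcases h1.lt_or_eq with h | h
    · exact h
    · exfalso
      apply hV
      rw [← V.valuation_le_one_iff, map_inv₀, h, inv_one]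
  have hval_n : V.valuation (n : ℂ) < 1 := by
    have h1 : V.valuation (n : ℂ) ≤ 1 := (V.valuation_le_one_iff _).mpr hnV
    rcases h1.lt_or_eq with h | h
    · exact h
    · exfalso
      apply hcon
      rw [← V.valuation_le_one_iff, map_inv₀, h, inv_one]
  have ha : V.valuation (a : ℂ) ≤ 1 := (V.valuation_le_one_iff _).mpr (intCast_mem V a)
  have hb : V.valuation (b : ℂ) ≤ 1 := (V.valuation_le_one_iff _).mpr (intCast_mem V b)
  have h1 : (1 : ℂ) = (a : ℂ) * (l : ℂ) + (b : ℂ) * (n : ℂ) := by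
    have := congrArg (fun z : ℤ => (z : ℂ)) hab
    push_cast at this
    exact this.symm
  have h2 : V.valuation (1 : ℂ) < 1 := by
    rw [h1]
    refine lt_of_le_of_lt (V.valuation.map_add _ _) (max_lt ?_ ?_)
    · rw [map_mul]
      calc V.valuation (a : ℂ) * V.valuation (l : ℂ) ≤ 1 * V.valuation (l : ℂ) :=
            mul_le_mul' ha le_rfl
        _ = V.valuation (l : ℂ) := one_mul _
        _ < 1 := hval_l
    · rw [map_mul]
      calc V.valuation (b : ℂ) * V.valuation (n : ℂ) ≤ 1 * V.valuation (n : ℂ) :=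
            mul_le_mul' hb le_rfl
        _ = V.valuation (n : ℂ) := one_mul _
        _ < 1 := hval_n
  rw [map_one] at h2
  exact lt_irrefl _ h2

/-- Roots of unity lie in every valuation subring. -/
theorem mem_of_pow_eq_one {ζ : ℂ} {k : ℕ} (hk : k ≠ 0) (hζ : ζ ^ k = 1) : ζ ∈ V := by
  by_contra hcon
  have h1 : ¬ V.valuation ζ ≤ 1 := fun h => hcon ((V.valuation_le_one_iff _).mp h)
  have h2 : 1 < V.valuation ζ := not_le.mp h1
  have h3 : 1 < V.valuation ζ ^ k := one_lt_pow₀ h2 hk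
  rw [← map_pow, hζ, map_one] at h3
  exact lt_irrefl _ h3

end Fermat.Agent.S16.H63
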