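/-
S16, UPPER, package U-N (helper63): the final UPPER statement, proved from its three inputs

* `hREL` : relation (I) `24 * m ∣ (p ^ 2 - 1) * a 1` (every prime `p`);
* `hA`, `hB`, `hC` : the three "no `G`" statements (NOG) for the classes
  (a) `l ≥ 5`, `l ∣ p + 1`; (b) `9 ∣ p + 1`; (c) `8 ∣ p + 1`:
  there is no `G ∈ M_2(Γ₀(p))` with `a_0(G) = 1` and `a_n(G) ∈ l^s V` for all `n ≥ 1`,
  `V` a valuation subring of `ℂ` in which `l` is a nonunit.

Together with the landed arithmetic (`H35.int_dvd_eisensteinNumerator_of_dvd`) and the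
Eisenstein series `H91.eisP p` they give `m ∣ eisensteinNumerator p`.
-/
import Fermat.Agent.S16.H63.Val
import Fermat.Agent.S16.H91.EisQ
import Fermat.Agent.S16.H35.Arith
import Fermat.Agent.S20.Basic

set_option autoImplicit false

namespace Fermat.Agent.S16.H63

open UpperHalfPlane ModularForm CongruenceSubgroup ModularCurve
open scoped MatrixGroups ModularForm

noncomputable section

/-- The passage `f ↦ G = (24/(p-1)) (E' - f)`: constant term `1`, and the `n`-th coefficient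
is `24/(p-1) * (σ'(n) - a_n(f))`. -/
theorem exists_normalised (p : ℕ) [Fact p.Prime] (f : CuspForm (Gamma0 p) 2) :
    ∃ G : ModularForm (Gamma0 p) 2, (qExpansion 1 G).coeff 0 = 1 ∧
      ∀ n : ℕ, 0 < n → (qExpansion 1 G).coeff n =
        24 / ((p : ℂ) - 1) * ((H91.sigmaP p n : ℂ) - (qExpansion 1 f).coeff n) := by
  have hp := (Fact.out : p.Prime)
  have : NeZero p := ⟨hp.ne_zero⟩
  have hΓ : (1 : ℝ) ∈ (Subgroup.map (Matrix.SpecialLinearGroup.mapGL ℝ)
      (CongruenceSubgroup.Gamma0 p)).strictPeriods :=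
    CongruenceSubgroup.one_mem_strictPeriods_Gamma0 p
  have hp1 : (p : ℂ) - 1 ≠ 0 := by
    intro h
    have h2 : (p : ℂ) = 1 := by linear_combination h
    have h3 : p = 1 := by exact_mod_cast h2
    exact hp.one_lt.ne' h3
  obtain ⟨F, hF, -⟩ := Fermat.Agent.S20.exists_modularForm_of_cuspForm f
  have hq : qExpansion 1 ((24 / ((p : ℂ) - 1)) • (H91.eisP p - F) : ModularForm (Gamma0 p) 2) =
      (24 / ((p : ℂ) - 1)) • (qExpansion 1 (H91.eisP p) - qExpansion 1 f) := by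
    rw [FunLike.coe_smul, ModularForm.qExpansion_smul one_pos hΓ, FunLike.coe_sub,
      ModularForm.qExpansion_sub one_pos hΓ, hF]
  refine ⟨(24 / ((p : ℂ) - 1)) • (H91.eisP p - F), ?_, ?_⟩
  · rw [hq, PowerSeries.coeff_smul, map_sub, H91.qExpansion_eisP_coeff_zero,
      CuspFormClass.qExpansion_coeff_zero f one_pos hΓ, smul_eq_mul]
    field_simp
    ring
  · intro n hn
    rw [hq, PowerSeries.coeff_smul, map_sub, H91.qExpansion_eisP_coeff_of_ne_zero p hn.ne',
      smul_eq_mul]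

/-- Pure arithmetic: relation (I) and `a_1 ≡ 1 mod m` give `24 m ∣ p² - 1` for `p ≥ 5`. -/
theorem dvd_sq_sub_one {p : ℕ} (hp : p.Prime) (h5 : 5 ≤ p) (m a1 : ℤ)
    (h1 : m ∣ a1 - 1) (hrel : 24 * m ∣ ((p : ℤ) ^ 2 - 1) * a1) : 24 * m ∣ (p : ℤ) ^ 2 - 1 := by
  rw [H35.sq_sub_one_eq_int hp h5] at hrel ⊢
  rw [mul_assoc] at hrel
  have h2 : m ∣ ((ModularCurve.eisensteinNumerator p : ℤ) * (H35.kappa p : ℤ)) * a1 :=
    (mul_dvd_mul_iff_left (by norm_num : (24 : ℤ) ≠ 0)).mp hrel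
  have hcop : IsCoprime m a1 := by
    obtain ⟨t, ht⟩ := h1
    exact ⟨-t, 1, by linear_combination ht⟩
  exact mul_dvd_mul_left 24 (hcop.dvd_of_dvd_mul_right h2)

/-- Pure arithmetic: for `p = 2, 3` relation (I) and `a_1 ≡ 1 mod m` give `m ∣ 1`. -/
theorem dvd_one_of_small {p : ℕ} (hp : p = 2 ∨ p = 3) (m a1 : ℤ)
    (h1 : m ∣ a1 - 1) (hrel : 24 * m ∣ ((p : ℤ) ^ 2 - 1) * a1) : m ∣ 1 := by
  have hm : m ∣ a1 := by
    rcases hp with rfl | rfl
    · obtain ⟨t, ht⟩ := hrel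
      push_cast at ht
      exact ⟨8 * t, Int.eq_of_mul_eq_mul_left (by norm_num : (3 : ℤ) ≠ 0)
        (by linear_combination ht)⟩
    · obtain ⟨t, ht⟩ := hrel
      push_cast at ht
      exact ⟨3 * t, Int.eq_of_mul_eq_mul_left (by norm_num : (8 : ℤ) ≠ 0)
        (by linear_combination ht)⟩
  have := dvd_sub hm h1
  simpa using this

/-- **UPPER from its inputs** (relation (I) and the three NOG statements). -/
theorem upper_of (p : ℕ) [Fact p.Prime]
    (hREL : ∀ (m : ℤ) (f : CuspForm (Gamma0 p) 2) (a : ℕ → ℤ),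
      (∀ k : ℕ, 0 < k → (qExpansion 1 f).coeff k = (a k : ℂ)) →
      (∀ k : ℕ, 0 < k → m ∣ a k - (H91.sigmaP p k : ℤ)) →
      24 * m ∣ ((p : ℤ) ^ 2 - 1) * a 1)
    (hA : ∀ l : ℕ, l.Prime → 5 ≤ l → l ∣ p + 1 → ∀ V : ValuationSubring ℂ,
      ((l : ℂ) ∈ V ∧ (l : ℂ)⁻¹ ∉ V) → ∀ G : ModularForm (Gamma0 p) 2,
      (qExpansion 1 G).coeff 0 = 1 →
      (∀ n : ℕ, 0 < n → ∃ h ∈ V, (qExpansion 1 G).coeff n = l * h) → False)
    (hB : 9 ∣ p + 1 → ∀ V : ValuationSubring ℂ,
      ((3 : ℂ) ∈ V ∧ (3 : ℂ)⁻¹ ∉ V) → ∀ G : ModularForm (Gamma0 p) 2,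
      (qExpansion 1 G).coeff 0 = 1 →
      (∀ n : ℕ, 0 < n → ∃ h ∈ V, (qExpansion 1 G).coeff n = 9 * h) → False)
    (hC : 8 ∣ p + 1 → ∀ V : ValuationSubring ℂ,
      ((2 : ℂ) ∈ V ∧ (2 : ℂ)⁻¹ ∉ V) → ∀ G : ModularForm (Gamma0 p) 2,
      (qExpansion 1 G).coeff 0 = 1 →
      (∀ n : ℕ, 0 < n → ∃ h ∈ V, (qExpansion 1 G).coeff n = 8 * h) → False)
    (m : ℕ) (f : CuspForm (Gamma0 p) 2)
    (hf : ∀ k : ℕ, 0 < k → ∃ a : ℤ, ModularFormClass.qCoeff f k = (a : ℂ) ∧
      (m : ℤ) ∣ a - ∑ d ∈ k.divisors.filter (fun d => ¬ p ∣ d), (d : ℤ)) :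
    m ∣ eisensteinNumerator p := by
  classical
  have hp := (Fact.out : p.Prime)
  -- choose the integer coefficients
  have hf' : ∀ k : ℕ, ∃ a : ℤ, 0 < k → ((qExpansion 1 f).coeff k = (a : ℂ) ∧
      (m : ℤ) ∣ a - (H91.sigmaP p k : ℤ)) := by
    intro k
    by_cases hk : 0 < k
    · obtain ⟨a, ha1, ha2⟩ := hf k hk
      refine ⟨a, fun _ => ⟨ha1, ?_⟩⟩
      rw [H91.sigmaP_cast_int]
      exact ha2
    · exact ⟨0, fun h => absurd h hk⟩
  choose a ha using hf'
  have hrel := hREL (m : ℤ) f a (fun k hk => (ha k hk).1) (fun k hk => (ha k hk).2)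
  have h1 : (m : ℤ) ∣ a 1 - 1 := by
    have := (ha 1 one_pos).2
    have hs : (H91.sigmaP p 1 : ℤ) = 1 := by
      have : H91.sigmaP p 1 = 1 := by
        unfold H91.sigmaP
        rw [Nat.divisors_one, Finset.filter_singleton, if_pos, Finset.sum_singleton]
        exact fun h => hp.one_lt.ne' (Nat.dvd_one.mp h)
      rw [this]; rfl
    rwa [hs] at this
  -- small primes
  by_cases h5 : 5 ≤ p
  swap
  · have hp23 : p = 2 ∨ p = 3 := by
      have h2 := hp.two_le
      have hlt : p < 5 := not_le.mp h5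
      interval_cases p
      · exact Or.inl rfl
      · exact Or.inr rfl
      · exact absurd hp (by norm_num)
    have hm1 : (m : ℤ) ∣ 1 := dvd_one_of_small hp23 (m : ℤ) (a 1) h1 hrel
    have hm1' : m ∣ 1 := by exact_mod_cast hm1
    rw [Nat.dvd_one.mp hm1']
    exact one_dvd _
  -- `p ≥ 5`
  have h24 : 24 * (m : ℤ) ∣ (p : ℤ) ^ 2 - 1 := dvd_sq_sub_one hp h5 (m : ℤ) (a 1) h1 hrel
  obtain ⟨G, hG0, hGn⟩ := exists_normalised p f
  have hp1 : (p : ℂ) - 1 ≠ 0 := by
    intro h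
    have h2 : (p : ℂ) = 1 := by linear_combination h
    have h3 : p = 1 := by exact_mod_cast h2
    exact hp.one_lt.ne' h3
  -- the coefficients of `G` : `a_n(G) = -(24 / (p - 1)) * m * t_n`, `t_n ∈ ℤ`
  have hGn' : ∀ n : ℕ, 0 < n → ∃ t : ℤ,
      (qExpansion 1 G).coeff n = -(24 / ((p : ℂ) - 1)) * ((m : ℂ) * (t : ℂ)) := by
    intro n hn
    obtain ⟨t, ht⟩ := (ha n hn).2
    refine ⟨t, ?_⟩
    rw [hGn n hn, (ha n hn).1]
    have ht' : (a n : ℂ) - (H91.sigmaP p n : ℂ) = (m : ℂ) * (t : ℂ) := by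
      have := congrArg (fun z : ℤ => (z : ℂ)) ht
      push_cast at this
      exact this
    linear_combination (-(24 / ((p : ℂ) - 1))) * ht'
  have key : (m : ℤ) ∣ (eisensteinNumerator p : ℤ) := by
    refine H35.int_dvd_eisensteinNumerator_of_dvd hp h5 (m : ℤ) h24 ?_ ?_ ?_
    · -- class (a)
      intro l hl h5l hlp hlm
      obtain ⟨V, hV1, hV2⟩ := exists_valuationSubring l hl
      refine hA l hl h5l hlp V ⟨hV1, hV2⟩ G hG0 ?_
      intro n hn
      obtain ⟨t, ht⟩ := hGn' n hn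
      obtain ⟨m', hm'⟩ := hlm
      -- `l ∤ p - 1`
      have hlp1 : ¬ (l : ℤ) ∣ ((p : ℤ) - 1) := by
        intro hd
        have h2 : (l : ℤ) ∣ ((p : ℤ) + 1) := by exact_mod_cast hlp
        have h3 : (l : ℤ) ∣ 2 := by
          have := dvd_sub h2 hd
          have e : ((p : ℤ) + 1) - ((p : ℤ) - 1) = 2 := by ring
          rwa [e] at this
        have h4 : l ∣ 2 := by exact_mod_cast h3
        have := Nat.le_of_dvd (by norm_num) h4
        omega
      have hinv : (((p : ℤ) - 1 : ℤ) : ℂ)⁻¹ ∈ V := inv_intCast_mem V hl hV2 _ hlp1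
      refine ⟨-(24 * (((p : ℤ) - 1 : ℤ) : ℂ)⁻¹ * ((m' : ℂ) * (t : ℂ))), ?_, ?_⟩
      · exact V.neg_mem _ (V.mul_mem _ _ (V.mul_mem _ _ (by exact_mod_cast natCast_mem_V V 24) hinv)
          (V.mul_mem _ _ (intCast_mem_V V m') (intCast_mem_V V t)))
      · rw [ht]
        have hmc : (m : ℂ) = (l : ℂ) * (m' : ℂ) := by
          have := congrArg (fun z : ℤ => (z : ℂ)) hm'
          push_cast at this
          exact this
        rw [hmc]
        push_cast
        field_simp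
    · -- class (b)
      intro h9 h3m
      obtain ⟨V, hV1, hV2⟩ := exists_valuationSubring 3 (by norm_num)
      have hV1' : (3 : ℂ) ∈ V := by exact_mod_cast hV1
      have hV2' : (3 : ℂ)⁻¹ ∉ V := by exact_mod_cast hV2
      refine hB h9 V ⟨hV1', hV2'⟩ G hG0 ?_
      intro n hn
      obtain ⟨t, ht⟩ := hGn' n hn
      obtain ⟨m', hm'⟩ := h3m
      have hlp1 : ¬ ((3 : ℕ) : ℤ) ∣ ((p : ℤ) - 1) := by
        intro hd
        have h2 : (3 : ℤ) ∣ ((p : ℤ) + 1) := by
          have : ((9 : ℕ) : ℤ) ∣ ((p + 1 : ℕ) : ℤ) := Int.natCast_dvd_natCast.mpr h9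
          push_cast at this
          exact (by norm_num : (3 : ℤ) ∣ 9).trans this
        rw [Nat.cast_ofNat] at hd
        have h3 : (3 : ℤ) ∣ 2 := by
          have := dvd_sub h2 hd
          have e : ((p : ℤ) + 1) - ((p : ℤ) - 1) = 2 := by ring
          rwa [e] at this
        norm_num at h3
      have hinv : (((p : ℤ) - 1 : ℤ) : ℂ)⁻¹ ∈ V :=
        inv_intCast_mem V (by norm_num : (3 : ℕ).Prime) hV2 _ hlp1
      refine ⟨-(8 * (((p : ℤ) - 1 : ℤ) : ℂ)⁻¹ * ((m' : ℂ) * (t : ℂ))), ?_, ?_⟩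
      · exact V.neg_mem _ (V.mul_mem _ _ (V.mul_mem _ _ (by exact_mod_cast natCast_mem_V V 8) hinv)
          (V.mul_mem _ _ (intCast_mem_V V m') (intCast_mem_V V t)))
      · rw [ht]
        have hmc : (m : ℂ) = 3 * (m' : ℂ) := by
          have := congrArg (fun z : ℤ => (z : ℂ)) hm'
          push_cast at this
          exact this
        rw [hmc]
        push_cast
        field_simp
        ring
    · -- class (c)
      intro h8 h2m
      obtain ⟨V, hV1, hV2⟩ := exists_valuationSubring 2 (by norm_num)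
      have hV1' : (2 : ℂ) ∈ V := by exact_mod_cast hV1
      have hV2' : (2 : ℂ)⁻¹ ∉ V := by exact_mod_cast hV2
      refine hC h8 V ⟨hV1', hV2'⟩ G hG0 ?_
      intro n hn
      obtain ⟨t, ht⟩ := hGn' n hn
      obtain ⟨m', hm'⟩ := h2m
      -- `p - 1 = 2 * u` with `u` odd
      obtain ⟨c, hc⟩ := h8
      have hpc : (p : ℤ) = 8 * c - 1 := by
        have := congrArg (fun z : ℕ => (z : ℤ)) hc
        push_cast at this
        linarith
      have hodd : ¬ ((2 : ℕ) : ℤ) ∣ (4 * (c : ℤ) - 1) := by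
        intro hd
        have h2 : (2 : ℤ) ∣ 4 * (c : ℤ) := Dvd.intro (2 * (c : ℤ)) (by ring)
        rw [Nat.cast_ofNat] at hd
        have h3 : (2 : ℤ) ∣ 1 := by
          have := dvd_sub h2 hd
          have e : 4 * (c : ℤ) - (4 * (c : ℤ) - 1) = 1 := by ring
          rwa [e] at this
        norm_num at h3
      have hinv : ((4 * (c : ℤ) - 1 : ℤ) : ℂ)⁻¹ ∈ V :=
        inv_intCast_mem V (by norm_num : (2 : ℕ).Prime) hV2 _ hodd
      refine ⟨-(3 * ((4 * (c : ℤ) - 1 : ℤ) : ℂ)⁻¹ * ((m' : ℂ) * (t : ℂ))), ?_, ?_⟩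
      · exact V.neg_mem _ (V.mul_mem _ _ (V.mul_mem _ _ (by exact_mod_cast natCast_mem_V V 3) hinv)
          (V.mul_mem _ _ (intCast_mem_V V m') (intCast_mem_V V t)))
      · rw [ht]
        have hmc : (m : ℂ) = 2 * (m' : ℂ) := by
          have := congrArg (fun z : ℤ => (z : ℂ)) hm'
          push_cast at this
          exact this
        have hpc' : (p : ℂ) = 8 * (c : ℂ) - 1 := by
          have := congrArg (fun z : ℤ => (z : ℂ)) hpc
          push_cast at this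
          exact this
        have hne : (4 * (c : ℂ) - 1) ≠ 0 := by
          intro h
          apply hp1
          rw [hpc']
          linear_combination 2 * h
        rw [hmc, hpc']
        push_cast
        have e : (8 * (c : ℂ) - 1 - 1) = 2 * (4 * (c : ℂ) - 1) := by ring
        rw [e]
        field_simp
        ring
  exact_mod_cast key

end

end Fermat.Agent.S16.H63
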