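/-
S16, UPPER, package U-N (helper63): the common core of the "no `G`" statements.

* `SV V` : power series over `ℂ` with all coefficients in the valuation subring `V`;
* `maxIdeal V` : the maximal ideal of `V` (as an ideal of `V.toSubring`), prime;
* `nog_core` : a family `u c` (`c` a coset of `Γ₀(p)`) with the transformation law of the
  translates of a form of weight `w < 12`, whose period-`p` expansions have coefficients in `V`,
  nonunits below `t ^ p` and a unit at `t ^ p`, cannot exist (norm–Sturm, `H88.norm_sturm`);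
* `translate_expansion` : if `a_0(G) = 1`, `a_n(G) ∈ q V` (`n ≥ 1`) and `q ∣ p + 1`, then every
  translate of `G` has period-`p` expansion `1 + q H`, `H ∈ V⟦t⟧`;
* `formal_pow_sub`, `nog_pow_sub` : the case `Ψ = G ^ r - E`, `E` of level one.
-/
import Fermat.Agent.S16.H63.Val
import Fermat.Agent.S16.H22.ExpFinal
import Fermat.Agent.S16.H88.NormSturm

set_option autoImplicit false

open UpperHalfPlane ModularForm CongruenceSubgroup Matrix.SpecialLinearGroup
open scoped MatrixGroups ModularForm Manifold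
open Fermat.Agent.S20 Fermat.Agent.S22

noncomputable section

namespace Fermat.Agent.S16.H63

variable (V : ValuationSubring ℂ)

/-! ### Valuation facts -/

theorem val_le_one {x : ℂ} (hx : x ∈ V) : V.valuation x ≤ 1 := (V.valuation_le_one_iff x).mpr hx

theorem val_lt_one_of_inv_not_mem {x : ℂ} (hx : x ∈ V) (hx' : x⁻¹ ∉ V) : V.valuation x < 1 := by
  rcases (val_le_one V hx).lt_or_eq with h | h
  · exact h
  · exfalso
    apply hx'
    rw [← V.valuation_le_one_iff, map_inv₀, h, inv_one]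

theorem val_eq_one_of_inv_mem {x : ℂ} (hx : x ∈ V) (hx' : x⁻¹ ∈ V) (h0 : x ≠ 0) :
    V.valuation x = 1 := by
  refine le_antisymm (val_le_one V hx) ?_
  have h1 : V.valuation x * V.valuation x⁻¹ = 1 := by
    rw [← map_mul, mul_inv_cancel₀ h0, map_one]
  calc (1 : V.ValueGroup) = V.valuation x * V.valuation x⁻¹ := h1.symm
    _ ≤ V.valuation x * 1 := mul_le_mul' le_rfl (val_le_one V hx')
    _ = V.valuation x := mul_one _

/-- An integer prime to `l` is a unit of `V`. -/
theorem val_intCast_eq_one {l : ℕ} (hl : l.Prime) (hV : (l : ℂ)⁻¹ ∉ V) (n : ℤ)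
    (hn : ¬ (l : ℤ) ∣ n) : V.valuation (n : ℂ) = 1 := by
  have h0 : (n : ℂ) ≠ 0 := by
    intro h
    apply hn
    have : n = 0 := by exact_mod_cast h
    rw [this]
    exact dvd_zero _
  exact val_eq_one_of_inv_mem V (intCast_mem_V V n) (inv_intCast_mem V hl hV n hn) h0

theorem val_mul_lt_one {x y : ℂ} (hx : V.valuation x < 1) (hy : y ∈ V) :
    V.valuation (x * y) < 1 := by
  rw [map_mul]
  calc V.valuation x * V.valuation y ≤ V.valuation x * 1 := mul_le_mul' le_rfl (val_le_one V hy)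
    _ = V.valuation x := mul_one _
    _ < 1 := hx

/-! ### Power series with coefficients in `V` -/

/-- The subring of power series over `ℂ` all of whose coefficients lie in `V`. -/
def SV : Subring (PowerSeries ℂ) where
  carrier := {X | ∀ n : ℕ, PowerSeries.coeff n X ∈ V}
  mul_mem' := by
    intro X Y hX hY n
    rw [PowerSeries.coeff_mul]
    exact sum_mem fun i _ => V.mul_mem _ _ (hX _) (hY _)
  one_mem' := by
    intro n
    rw [PowerSeries.coeff_one]
    split_ifs
    · exact V.one_mem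
    · exact V.zero_mem
  add_mem' := by
    intro X Y hX hY n
    rw [map_add]
    exact V.add_mem _ _ (hX n) (hY n)
  zero_mem' := by
    intro n
    rw [map_zero]
    exact V.zero_mem
  neg_mem' := by
    intro X hX n
    rw [map_neg]
    exact V.neg_mem _ (hX n)

theorem mem_SV {X : PowerSeries ℂ} : X ∈ SV V ↔ ∀ n : ℕ, PowerSeries.coeff n X ∈ V := Iff.rfl

theorem C_mem_SV {a : ℂ} (ha : a ∈ V) : PowerSeries.C a ∈ SV V := by
  intro n
  rw [PowerSeries.coeff_C]
  split_ifs
  · exact ha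
  · exact V.zero_mem

/-- The image of an integral power series lies in `SV V`. -/
theorem map_int_mem_SV (Z : PowerSeries ℤ) : Z.map (Int.castRingHom ℂ) ∈ SV V := by
  intro n
  rw [PowerSeries.coeff_map]
  exact intCast_mem_V V _

/-! ### The maximal ideal -/

/-- The maximal ideal of `V`, as an ideal of the subring `V.toSubring`. -/
def maxIdeal : Ideal V.toSubring where
  carrier := {x | V.valuation (x : ℂ) < 1}
  add_mem' := fun {a b} ha hb => by
    show V.valuation ((a : ℂ) + (b : ℂ)) < 1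
    exact Valuation.map_add_lt _ ha hb
  zero_mem' := by
    show V.valuation (0 : ℂ) < 1
    rw [map_zero]
    exact zero_lt_one
  smul_mem' := fun c x hx => by
    show V.valuation ((c : ℂ) * (x : ℂ)) < 1
    rw [mul_comm]
    exact val_mul_lt_one V hx c.2

theorem mem_maxIdeal (x : V.toSubring) : x ∈ maxIdeal V ↔ V.valuation (x : ℂ) < 1 := Iff.rfl

theorem maxIdeal_isPrime : (maxIdeal V).IsPrime := by
  refine ⟨?_, ?_⟩
  · intro h
    have h1 : (1 : V.toSubring) ∈ maxIdeal V := by rw [h]; trivial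
    rw [mem_maxIdeal] at h1
    have h2 : V.valuation (1 : ℂ) < 1 := h1
    rw [map_one] at h2
    exact lt_irrefl _ h2
  · intro x y hxy
    rw [mem_maxIdeal] at hxy
    by_contra hcon
    rw [not_or, mem_maxIdeal, mem_maxIdeal, not_lt, not_lt] at hcon
    have hx : V.valuation (x : ℂ) = 1 := le_antisymm (val_le_one V x.2) hcon.1
    have hy : V.valuation (y : ℂ) = 1 := le_antisymm (val_le_one V y.2) hcon.2
    have h2 : V.valuation ((x : ℂ) * (y : ℂ)) < 1 := hxy
    rw [map_mul, hx, hy, one_mul] at h2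
    exact lt_irrefl _ h2

/-! ### The engine -/

/-- **NOG core.**  A family with the transformation law of the coset translates of a form of
weight `w < 12` on `Γ₀(p)`, whose period-`p` expansions have coefficients in `V`, nonunits
below `t ^ p` and a unit at `t ^ p`, does not exist. -/
theorem nog_core (p : ℕ) [Fact p.Prime] {w : ℕ} (hw : w < 12)
    (u : X p → ℍ → ℂ) (hol : ∀ c, MDiff (u c))
    (tr : ∀ (g : SL(2, ℤ)) (c : X p) (τ : ℍ),
      u c (g • τ) = denom g τ ^ (w : ℤ) * u (g⁻¹ • c) τ)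
    (bdd : ∀ c, IsBoundedAtImInfty (u c))
    (hexp : ∀ c, qExpansion (p : ℝ) (u c) ∈ SV V ∧
      (∀ n < p, V.valuation ((qExpansion (p : ℝ) (u c)).coeff n) < 1) ∧
      V.valuation ((qExpansion (p : ℝ) (u c)).coeff p) = 1) : False := by
  have : NeZero p := ⟨(Fact.out : p.Prime).ne_zero⟩
  obtain ⟨Ψ, hΨ⟩ := exists_modularForm_of_family (k := (w : ℤ)) u hol tr bdd
  refine H88.norm_sturm p hw Ψ V.toSubring (maxIdeal V) (maxIdeal_isPrime V) ?_
  intro c
  obtain ⟨h1, h2, h3⟩ := hexp c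
  refine ⟨PowerSeries.mk fun n => ⟨_, h1 n⟩, ?_, ?_, ?_⟩
  · rw [hΨ c]
    ext n
    simp
  · intro n hn
    rw [PowerSeries.coeff_mk, mem_maxIdeal]
    exact h2 n hn
  · rw [PowerSeries.coeff_mk, mem_maxIdeal, not_lt]
    exact h3.ge

/-! ### The expansions of the translates of `G` -/

/-- If `a_0(G) = 1`, `a_n(G) ∈ q V` for `n ≥ 1`, `q ∣ p + 1` and `p` is a unit of `V`, then every
coset translate of `G` has period-`p` expansion `1 + q H` with `H ∈ V⟦t⟧`. -/
theorem translate_expansion (p : ℕ) [Fact p.Prime] (q : ℕ) (hq : q ∣ p + 1)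
    (hpV : (p : ℂ)⁻¹ ∈ V) (G : ModularForm (Γ0 p) 2)
    (h0 : (qExpansion 1 G).coeff 0 = 1)
    (hG : ∀ n : ℕ, 0 < n → ∃ h ∈ V, (qExpansion 1 G).coeff n = q * h) (c : X p) :
    ∃ H ∈ SV V, qExpansion (p : ℝ) (cosetFun G c) = 1 + PowerSeries.C (q : ℂ) * H := by
  have hp := (Fact.out : p.Prime)
  have hG' : ∀ n : ℕ, ∃ h : ℂ, 0 < n → (h ∈ V ∧ (qExpansion 1 G).coeff n = q * h) := by
    intro n
    by_cases hn : 0 < n
    · obtain ⟨h, h1, h2⟩ := hG n hn
      exact ⟨h, fun _ => ⟨h1, h2⟩⟩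
    · exact ⟨0, fun h => absurd h hn⟩
  choose h hh using hG'
  rcases H22.qExpansion_cosetFun p G c with hc | ⟨ζ, hζ, hc⟩
  · refine ⟨PowerSeries.mk fun n => if p ∣ n ∧ n ≠ 0 then h (n / p) else 0, ?_, ?_⟩
    · intro n
      rw [PowerSeries.coeff_mk]
      split_ifs with hn
      · exact (hh _ (Nat.div_pos (Nat.le_of_dvd (Nat.pos_of_ne_zero hn.2) hn.1) hp.pos)).1
      · exact V.zero_mem
    · ext n
      rw [hc n, map_add, PowerSeries.coeff_C_mul, PowerSeries.coeff_mk, PowerSeries.coeff_one]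
      by_cases hn0 : n = 0
      · subst hn0
        simp [h0]
      · by_cases hpn : p ∣ n
        · rw [if_pos hpn, if_neg hn0, if_pos ⟨hpn, hn0⟩, zero_add]
          exact (hh _ (Nat.div_pos (Nat.le_of_dvd (Nat.pos_of_ne_zero hn0) hpn) hp.pos)).2
        · rw [if_neg hpn, if_neg hn0, if_neg (fun h => hpn h.1), mul_zero, add_zero]
  · obtain ⟨k, hk⟩ := hq
    have hζV : ζ ∈ V := mem_of_pow_eq_one V hp.ne_zero hζ
    refine ⟨PowerSeries.mk fun n => if n = 0 then -((k : ℂ) * (p : ℂ)⁻¹)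
      else -((p : ℂ)⁻¹ * ζ ^ n * h (p * n)), ?_, ?_⟩
    · intro n
      rw [PowerSeries.coeff_mk]
      split_ifs with hn
      · exact V.neg_mem _ (V.mul_mem _ _ (natCast_mem_V V k) hpV)
      · exact V.neg_mem _ (V.mul_mem _ _ (V.mul_mem _ _ hpV (pow_mem hζV n))
          (hh _ (Nat.mul_pos hp.pos (Nat.pos_of_ne_zero hn))).1)
    · ext n
      rw [hc n, map_add, PowerSeries.coeff_C_mul, PowerSeries.coeff_mk, PowerSeries.coeff_one]
      by_cases hn0 : n = 0
      · subst hn0
        rw [if_pos rfl, if_pos rfl, mul_zero, h0, pow_zero]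
        have hpc : (p : ℂ) ≠ 0 := Nat.cast_ne_zero.mpr hp.ne_zero
        have hk' : (p : ℂ) + 1 = q * k := by exact_mod_cast hk
        field_simp
        linear_combination -hk'
      · rw [if_neg hn0, if_neg hn0, zero_add, (hh _ (Nat.mul_pos hp.pos (Nat.pos_of_ne_zero hn0))).2]
        ring

/-! ### The case `Ψ = G ^ r - E` -/

/-- Formal lemma: if `A = 1 + l H` with `H ∈ V⟦t⟧`, `l` a nonunit of `V`, and `e ∈ V⟦t⟧` has
`e_0 = 1`, `e_n = 0` for `0 < n < p` and `e_p` a unit, then `A ^ r - e` has nonunit coefficients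
below `t ^ p` and a unit coefficient at `t ^ p`. -/
theorem formal_pow_sub (l : ℂ) (hl : V.valuation l < 1) (p r : ℕ) (hp : 0 < p)
    (H e : PowerSeries ℂ) (hH : H ∈ SV V) (he : e ∈ SV V)
    (he0 : e.coeff 0 = 1) (hen : ∀ n : ℕ, 0 < n → n < p → e.coeff n = 0)
    (hep : V.valuation (e.coeff p) = 1) :
    (1 + PowerSeries.C l * H) ^ r - e ∈ SV V ∧
      (∀ n < p, V.valuation (((1 + PowerSeries.C l * H) ^ r - e).coeff n) < 1) ∧
      V.valuation (((1 + PowerSeries.C l * H) ^ r - e).coeff p) = 1 := by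
  have hlV : l ∈ V := (V.valuation_le_one_iff l).mp hl.le
  set A : PowerSeries ℂ := 1 + PowerSeries.C l * H with hA
  have hAV : A ∈ SV V := (SV V).add_mem (SV V).one_mem ((SV V).mul_mem (C_mem_SV V hlV) hH)
  set H' : PowerSeries ℂ := H * ∑ i ∈ Finset.range r, A ^ i with hH'
  have hH'V : H' ∈ SV V :=
    (SV V).mul_mem hH ((SV V).sum_mem fun i _ => (SV V).pow_mem hAV i)
  have hAr : A ^ r = 1 + PowerSeries.C l * H' := by
    have h1 := geom_sum_mul A r
    have h2 : A - 1 = PowerSeries.C l * H := by rw [hA]; ring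
    rw [h2] at h1
    rw [hH']
    linear_combination -h1
  have hB : A ^ r - e = (1 - e) + PowerSeries.C l * H' := by rw [hAr]; ring
  have hcoeff : ∀ n : ℕ, (A ^ r - e).coeff n = (1 - e).coeff n + l * H'.coeff n := by
    intro n
    rw [hB, map_add, PowerSeries.coeff_C_mul]
  refine ⟨(SV V).sub_mem ((SV V).pow_mem hAV r) he, ?_, ?_⟩
  · intro n hn
    rw [hcoeff n]
    have h1 : (1 - e).coeff n = 0 := by
      rw [map_sub, PowerSeries.coeff_one]
      by_cases hn0 : n = 0
      · subst hn0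
        rw [if_pos rfl, he0, sub_self]
      · rw [if_neg hn0, hen n (Nat.pos_of_ne_zero hn0) hn, sub_zero]
    rw [h1, zero_add]
    exact val_mul_lt_one V hl (hH'V n)
  · rw [hcoeff p]
    have h1 : (1 - e).coeff p = -e.coeff p := by
      rw [map_sub, PowerSeries.coeff_one, if_neg hp.ne', zero_sub]
    rw [h1]
    have h2 : V.valuation (l * H'.coeff p) < V.valuation (-e.coeff p) := by
      rw [Valuation.map_neg, hep]
      exact val_mul_lt_one V hl (hH'V p)
    rw [Valuation.map_add_eq_of_lt_left _ h2, Valuation.map_neg, hep]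

/-- **NOG for `Ψ = G ^ r - E`.**  `E` is a level-one form of weight `2 r < 12` (given as a
function with its transformation law) whose `q`-expansion has coefficients in `V`, constant
term `1` and a unit as coefficient of `q`. -/
theorem nog_pow_sub (p : ℕ) [Fact p.Prime] (l : ℕ) (hV : (l : ℂ) ∈ V ∧ (l : ℂ)⁻¹ ∉ V)
    (hlp : l ∣ p + 1) (hpV : (p : ℂ)⁻¹ ∈ V)
    (r : ℕ) (hr : 2 * r < 12) (E : ℍ → ℂ) (hE : IsNice 1 E)
    (hEtr : ∀ (g : SL(2, ℤ)) (τ : ℍ), E (g • τ) = denom g τ ^ ((2 * r : ℕ) : ℤ) * E τ)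
    (hEV : qExpansion 1 E ∈ SV V) (hE0 : (qExpansion 1 E).coeff 0 = 1)
    (hE1 : V.valuation ((qExpansion 1 E).coeff 1) = 1)
    (G : ModularForm (Γ0 p) 2) (h0 : (qExpansion 1 G).coeff 0 = 1)
    (hG : ∀ n : ℕ, 0 < n → ∃ h ∈ V, (qExpansion 1 G).coeff n = l * h) : False := by
  have hp := (Fact.out : p.Prime)
  have : NeZero p := ⟨hp.ne_zero⟩
  have hlval : V.valuation (l : ℂ) < 1 := val_lt_one_of_inv_not_mem V hV.1 hV.2
  have hEp : IsNice p E := by
    refine IsNice.of_one p ?_ hE.holo hE.bdd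
    have := hE.per
    simpa using this
  have hnG : ∀ c : X p, IsNice p (cosetFun G c) := fun c => H22.isNice_cosetFun G c
  have hnice : ∀ c : X p, IsNice p (cosetFun G c ^ r - E) := fun c =>
    (niceAlg p).sub_mem ((niceAlg p).pow_mem (hnG c) r) hEp
  -- the expansion of `E` at period `p`
  have heper : ∀ n : ℕ, (qExpansion (p : ℝ) E).coeff n =
      if p ∣ n then (qExpansion 1 E).coeff (n / p) else 0 :=
    fun n => H22.coeff_qExpansion_period hE n
  refine nog_core V p hr (fun c => cosetFun G c ^ r - E) (fun c => (hnice c).holo) ?_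
    (fun c => (hnice c).bdd) ?_
  · intro g c τ
    show cosetFun G c (g • τ) ^ r - E (g • τ) =
      denom g τ ^ ((2 * r : ℕ) : ℤ) * (cosetFun G (g⁻¹ • c) τ ^ r - E τ)
    rw [cosetFun_smul_apply, hEtr g τ, mul_pow]
    have h1 : (denom g τ ^ (2 : ℤ)) ^ r = denom g τ ^ ((2 * r : ℕ) : ℤ) := by
      rw [← zpow_natCast, ← zpow_mul]
      norm_num
    rw [h1]
    ring
  · intro c
    have hq : qExpansion (p : ℝ) (cosetFun G c ^ r - E) =
        qExpansion (p : ℝ) (cosetFun G c) ^ r - qExpansion (p : ℝ) E := by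
      have h1 := map_sub (qExpHom p) ((⟨cosetFun G c, hnG c⟩ : niceAlg p) ^ r) ⟨E, hEp⟩
      rw [map_pow] at h1
      exact h1
    obtain ⟨H, hH, hA⟩ := translate_expansion V p l hlp hpV G h0 hG c
    rw [hq, hA]
    refine formal_pow_sub V (l : ℂ) hlval p r hp.pos H _ hH ?_ ?_ ?_ ?_
    · intro n
      rw [heper n]
      split_ifs
      · exact hEV _
      · exact V.zero_mem
    · rw [heper 0, if_pos (dvd_zero p), Nat.zero_div, hE0]
    · intro n hn hnp
      rw [heper n, if_neg (Nat.not_dvd_of_pos_of_lt hn hnp)]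
    · rw [heper p, if_pos dvd_rfl, Nat.div_self hp.pos, hE1]

end Fermat.Agent.S16.H63
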