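/-
S16, UPPER, package U-N (helper63): the "no `G`" statement in class (a):
`l ≥ 5` prime, `l ∣ p + 1`.  There is no `G ∈ M_2(Γ₀(p))` with `a_0(G) = 1` and
`a_n(G) ∈ l V` for all `n ≥ 1` (`V` a valuation subring of `ℂ` in which `l` is a nonunit).

`Ψ = G ^ 2 - E₄` for `l ≥ 7` (`240` is a unit), `Ψ = G ^ 3 - E₆` for `l = 5` (`504` is a unit).
-/
import Fermat.Agent.S16.H63.NogCore

set_option autoImplicit false

open UpperHalfPlane ModularForm CongruenceSubgroup Matrix.SpecialLinearGroup EisensteinSeries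
open scoped MatrixGroups ModularForm Manifold
open Fermat.Agent.S20 Fermat.Agent.S22

noncomputable section

namespace Fermat.Agent.S16.H63

/-- Transformation law of a level-one form. -/
theorem levelOne_tr {m : ℤ} (r : ModularForm 𝒮ℒ m) (g : SL(2, ℤ)) (τ : ℍ) :
    r (g • τ) = denom g τ ^ m * r τ := by
  have h := congrFun (H47.levelOne_slash r g) τ
  rw [SL_slash_apply] at h
  have hd : denom g τ ≠ 0 := denom_ne_zero g τ
  rw [← h, zpow_neg, mul_comm (r (g • τ)), ← mul_assoc, mul_inv_cancel₀ (zpow_ne_zero _ hd),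
    one_mul]

/-- A level-one form is `1`-periodic, holomorphic and bounded at `i∞`. -/
theorem isNice_levelOne {m : ℤ} (r : ModularForm 𝒮ℒ m) : IsNice 1 (r : ℍ → ℂ) :=
  IsNice.of_one 1 (SlashInvariantFormClass.periodic_comp_ofComplex r one_mem_strictPeriods_SL)
    (ModularFormClass.holo r) (ModularFormClass.bdd_at_infty r)

theorem coeff_one_E4 : (qExpansion 1 E₄).coeff 1 = 240 := by
  rw [H78.qExpansion_E4, PowerSeries.coeff_map]
  simp [H78.E4Z, ModularCurve.eisenstein4]

theorem coeff_one_E6 : (qExpansion 1 E₆).coeff 1 = -504 := by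
  rw [H78.qExpansion_E6, PowerSeries.coeff_map]
  simp [H78.E6Z]

/-- **NOG, class (a).** -/
theorem nog_ge_five (p : ℕ) [Fact p.Prime] (l : ℕ) (hl : l.Prime) (h5 : 5 ≤ l)
    (hlp : l ∣ p + 1) (V : ValuationSubring ℂ) (hV : (l : ℂ) ∈ V ∧ (l : ℂ)⁻¹ ∉ V)
    (G : ModularForm (Γ0 p) 2) (h0 : (qExpansion 1 G).coeff 0 = 1)
    (hG : ∀ n : ℕ, 0 < n → ∃ h ∈ V, (qExpansion 1 G).coeff n = l * h) : False := by
  have hp := (Fact.out : p.Prime)
  have hpV : (p : ℂ)⁻¹ ∈ V := by
    have hnd : ¬ (l : ℤ) ∣ (p : ℤ) := by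
      intro h
      have h1 : l ∣ p := by exact_mod_cast h
      have h2 : l ∣ 1 := (Nat.dvd_add_right h1).mp hlp
      exact hl.one_lt.ne' (Nat.dvd_one.mp h2)
    have := inv_intCast_mem V hl hV.2 (p : ℤ) hnd
    simpa using this
  by_cases h5' : l = 5
  · subst h5'
    refine nog_pow_sub V p 5 hV hlp hpV 3 (by norm_num) E₆ (isNice_levelOne E₆) ?_ ?_ ?_ ?_
      G h0 hG
    · intro g τ
      have := levelOne_tr E₆ g τ
      simpa using this
    · rw [H78.qExpansion_E6]
      exact map_int_mem_SV V _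
    · exact E_qExpansion_coeff_zero _ ⟨3, rfl⟩
    · rw [coeff_one_E6]
      have := val_intCast_eq_one V hl hV.2 (-504) (by norm_num)
      simpa using this
  · have h7 : 7 ≤ l := by
      rcases Nat.lt_or_ge l 7 with h | h
      · exfalso
        have h6 : l = 6 := by omega
        subst h6
        exact absurd hl (by norm_num)
      · exact h
    refine nog_pow_sub V p l hV hlp hpV 2 (by norm_num) E₄ (isNice_levelOne E₄) ?_ ?_ ?_ ?_
      G h0 hG
    · intro g τ
      have := levelOne_tr E₄ g τ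
      simpa using this
    · rw [H78.qExpansion_E4]
      exact map_int_mem_SV V _
    · exact E_qExpansion_coeff_zero _ ⟨2, rfl⟩
    · rw [coeff_one_E4]
      have hnd : ¬ (l : ℤ) ∣ (240 : ℤ) := by
        intro h
        have h1 : l ∣ 240 := by exact_mod_cast h
        have h240 : (240 : ℕ) = 2 ^ 4 * 3 * 5 := by norm_num
        rw [h240] at h1
        rcases (Nat.Prime.dvd_mul hl).mp h1 with h | h
        · rcases (Nat.Prime.dvd_mul hl).mp h with h | h
          · have := Nat.le_of_dvd (by norm_num) (hl.dvd_of_dvd_pow h)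
            omega
          · have := Nat.le_of_dvd (by norm_num) h
            omega
        · have := Nat.le_of_dvd (by norm_num) h
          omega
      have := val_intCast_eq_one V hl hV.2 240 hnd
      simpa using this

end Fermat.Agent.S16.H63
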