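/-
S16, UPPER (helper63): the UPPER export of the S16 interface, unconditional.

`upper` : a cusp form of weight 2 on `Γ₀(p)` with integer coefficients congruent to those of the
Eisenstein series modulo `m` forces `m ∣ eisensteinNumerator p`.

Assembly: `H63.upper_of` from
* relation (I) `24 m ∣ (p² - 1) a_1`          (`H77.rel_I`, helper77);
* NOG class (a) `l ≥ 5`, `l ∣ p + 1`          (`H63.nog_ge_five`);
* NOG class (b) `9 ∣ p + 1`, (c) `8 ∣ p + 1`  (`H37.nog_three'`, `H37.nog_two'`, helper37).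
-/
import Fermat.Agent.S16.H63.UpperOf
import Fermat.Agent.S16.H63.NogA
import Fermat.Agent.S16.H77.RelI
import Fermat.Agent.S16.H37.NogFinal

set_option autoImplicit false

open UpperHalfPlane ModularForm CongruenceSubgroup ModularCurve
open scoped MatrixGroups ModularForm

namespace Fermat.Agent.S16.H63

/-- **UPPER.** -/
theorem upper (p : ℕ) [Fact p.Prime] (m : ℕ) (f : CuspForm (Gamma0 p) 2)
    (hf : ∀ k : ℕ, 0 < k → ∃ a : ℤ, ModularFormClass.qCoeff f k = (a : ℂ) ∧
      (m : ℤ) ∣ a - ∑ d ∈ k.divisors.filter (fun d => ¬ p ∣ d), (d : ℤ)) :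
    m ∣ eisensteinNumerator p :=
  upper_of p (fun m f a ha hc => H77.rel_I p m f a ha hc)
    (fun l hl h5 hlp V hV G h0 hG => nog_ge_five p l hl h5 hlp V hV G h0 hG)
    (H37.nog_three' p) (H37.nog_two' p) m f hf

end Fermat.Agent.S16.H63
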